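import Fermat.Agent.KroneckerHonda.Curvature
import Fermat.Agent.RootsModP.Orbits

/-!
# The residues are rational

For coprime `P`, `Q ∈ ℤ[X]` such that `Q y' = P y` is solvable modulo almost all primes, the roots
of `Q` are simple and the residues `P / Q'` there reduce into the prime fields, hence are rational
by the theorem of Kronecker and Jordan.
-/

set_option autoImplicit false

noncomputable section

namespace FA.KroneckerHonda

open Polynomial Fermat.Agent.RootsModP

/-- A polynomial of degree at least two, irreducible over `ℚ`, has no root modulo infinitely many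
primes. -/
theorem infinite_no_root {g : ℤ[X]} (hg : g.Monic)
    (hirr : Irreducible (g.map (Int.castRingHom ℚ))) (hd : 2 ≤ g.natDegree) :
    {p : ℕ | p.Prime ∧ rootsMod g p = 0}.Infinite := by
  intro hfin
  have : IsSplittingField ℚ (g.map (Int.castRingHom ℚ)).SplittingField
      (g.map (Int.castRingHom ℚ)) := by
    convert! IsSplittingField.splittingField (g.map (Int.castRingHom ℚ)) using 2
  have : FiniteDimensional ℚ (g.map (Int.castRingHom ℚ)).SplittingField :=
    IsSplittingField.finiteDimensional _ (g.map (Int.castRingHom ℚ))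
  have : NumberField (g.map (Int.castRingHom ℚ)).SplittingField := { }
  have : IsGalois ℚ (g.map (Int.castRingHom ℚ)).SplittingField :=
    IsGalois.of_separable_splitting_field hirr.separable
  have hs := IsSplittingField.splits (g.map (Int.castRingHom ℚ)).SplittingField
    (g.map (Int.castRingHom ℚ))
  have h := (finite_no_root_iff hg hirr.separable hs).1 hfin
  have hle := card_le_mul_card_no_fixedRoot hg hirr hs hd
  have hempty : Nat.card {σ : (g.map (Int.castRingHom ℚ)).SplittingField ≃ₐ[ℚ]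
      (g.map (Int.castRingHom ℚ)).SplittingField | fixedRoots g σ = 0} = 0 :=
    Nat.card_eq_zero.2 (Or.inl ⟨fun σ => h σ.1 σ.2⟩)
  rw [hempty, mul_zero] at hle
  exact absurd hle (not_le.2 Nat.card_pos)

/-- An integral multiple. -/
theorem exists_integral_multiple (f : ℚ[X]) :
    ∃ (b : ℤ) (F : ℤ[X]), b ≠ 0 ∧ F.map (Int.castRingHom ℚ) = C (b : ℚ) * f := by
  obtain ⟨b, hb, hbf⟩ := IsLocalization.integerNormalization_spec (nonZeroDivisors ℤ) f
  rw [Algebra.smul_def, Polynomial.algebraMap_apply, algebraMap_int_eq] at hbf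
  exact ⟨b, _, nonZeroDivisors.ne_zero hb, by simpa using hbf⟩

/-- Reductions of an algebraic number: the relations it satisfies hold at a common point. -/
theorem exists_reduction {r : ℂ} (hr : IsAlgebraic ℚ r) {f g : ℤ[X]} (hf : aeval r f = 0)
    (hg : aeval r g = 0) :
    ∃ N : ℕ, ∀ (p : ℕ) [Fact p.Prime], N < p → ∃ ρ : AlgebraicClosure (ZMod p),
      (f.map (Int.castRingHom _)).eval ρ = 0 ∧ (g.map (Int.castRingHom _)).eval ρ = 0 := by
  have hint : IsIntegral ℚ r := hr.isIntegral
  obtain ⟨q₀, hq₀⟩ : ∃ q₀ : ℚ[X], q₀ = minpoly ℚ r := ⟨_, rfl⟩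
  have hrq : ∀ F : ℤ[X], aeval r F = 0 →
      q₀ ∣ F.map (Int.castRingHom ℚ) := fun F hF => hq₀ ▸ minpoly.dvd ℚ r (by
    rw [← algebraMap_int_eq, aeval_map_algebraMap]; exact hF)
  obtain ⟨u, hu⟩ := hrq f hf
  obtain ⟨v, hv⟩ := hrq g hg
  obtain ⟨b, q, hb, hq⟩ := exists_integral_multiple q₀
  obtain ⟨c, u', hc, hu'⟩ := exists_integral_multiple u
  obtain ⟨e, v', he, hv'⟩ := exists_integral_multiple v
  have hqf : C (b * c) * f = q * u' 
      := Polynomial.map_injective (Int.castRingHom ℚ) Int.cast_injective (by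
    rw [Polynomial.map_mul, Polynomial.map_mul, map_C, hq, hu', hu, eq_intCast, Int.cast_mul,
      C_mul]
    ring)
  have hqg : C (b * e) * g = q * v' 
      := Polynomial.map_injective (Int.castRingHom ℚ) Int.cast_injective (by
    rw [Polynomial.map_mul, Polynomial.map_mul, map_C, hq, hv', hv, eq_intCast, Int.cast_mul,
      C_mul]
    ring)
  have hqd : 0 < q.natDegree := by
    rw [← natDegree_map_eq_of_injective (f := Int.castRingHom ℚ) Int.cast_injective q, hq,
      natDegree_C_mul (Int.cast_ne_zero.2 hb), hq₀]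
    exact minpoly.natDegree_pos hint
  refine ⟨(b * c * e * q.leadingCoeff).natAbs, fun p hp hlt => ?_⟩
  have hne : ∀ z : ℤ, z ∣ b * c * e * q.leadingCoeff → (z : AlgebraicClosure (ZMod p)) ≠ 0 :=
    fun z hz h0 => by
      rw [CharP.intCast_eq_zero_iff _ p] at h0
      have h1 := Nat.le_of_dvd (Int.natAbs_pos.2 (mul_ne_zero (mul_ne_zero (mul_ne_zero hb hc) he)
        (leadingCoeff_ne_zero.2 (ne_zero_of_natDegree_gt hqd))))
        (Int.natCast_dvd.1 (h0.trans hz))
      omega
  obtain ⟨ρ, hρ⟩ := IsAlgClosed.exists_root (q.map (Int.castRingHom (AlgebraicClosure (ZMod p))))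
    (fun h => by
      have h' := natDegree_eq_zero_iff_degree_le_zero.2 h.le
      rw [natDegree_map_of_leadingCoeff_ne_zero _ (hne _ (Dvd.intro_left _ rfl))] at h'
      omega)
  refine ⟨ρ, ?_, ?_⟩
  · have h := congrArg
      (fun F : ℤ[X] => (F.map (Int.castRingHom (AlgebraicClosure (ZMod p)))).eval ρ) hqf
    simp only [Polynomial.map_mul, eval_mul, IsRoot.def.1 hρ, zero_mul, eq_intCast,
      Polynomial.map_intCast, eval_intCast] at h
    exact (mul_eq_zero.1 h).resolve_left (hne _ (Dvd.intro _ (mul_assoc (b * c) e _).symm))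
  · have h := congrArg
      (fun F : ℤ[X] => (F.map (Int.castRingHom (AlgebraicClosure (ZMod p)))).eval ρ) hqg
    simp only [Polynomial.map_mul, eval_mul, IsRoot.def.1 hρ, zero_mul, eq_intCast,
      Polynomial.map_intCast, eval_intCast] at h
    exact (mul_eq_zero.1 h).resolve_left (hne _ ⟨c * q.leadingCoeff, by ring⟩)

/-- Solvability modulo almost all primes. -/
def SolvableMod (P Q : ℤ[X]) (N : ℕ) : Prop :=
  ∀ p : ℕ, p.Prime → N < p → ∃ y : (ZMod p)[X], y ≠ 0 ∧
    Q.map (Int.castRingHom (ZMod p)) * derivative y = P.map (Int.castRingHom (ZMod p)) * y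

variable {P Q A B : ℤ[X]} {d : ℤ} {N : ℕ}

/-- The roots of `Q` are simple. -/
theorem aeval_derivative_ne_zero (hQ : Q ≠ 0) (hd : d ≠ 0) (hAB : A * P + B * Q = C d)
    (hs : SolvableMod P Q N) {r : ℂ} (hr : aeval r Q = 0) : aeval r (derivative Q) ≠ 0 := by
  intro h0
  have halg : IsAlgebraic ℚ r := ⟨Q.map (Int.castRingHom ℚ),
    (Polynomial.map_ne_zero_iff (Int.castRingHom ℚ).injective_int).2 hQ, by
      rw [← algebraMap_int_eq, aeval_map_algebraMap]; exact hr⟩
  obtain ⟨N₁, hN₁⟩ := exists_reduction halg hr h0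
  obtain ⟨p, hlt, hp⟩ := Nat.exists_infinite_primes (max (max N N₁) d.natAbs + 1)
  have : Fact p.Prime := ⟨hp⟩
  obtain ⟨ρ, h1, h2⟩ := hN₁ p (by omega)
  obtain ⟨y, hy0, hy⟩ := hs p hp (by omega)
  have hy' := congrArg (Polynomial.map (algebraMap (ZMod p) (AlgebraicClosure (ZMod p)))) hy
  simp only [Polynomial.map_mul, ← derivative_map, Polynomial.map_map,
    RingHom.ext_int ((algebraMap (ZMod p) (AlgebraicClosure (ZMod p))).comp
      (Int.castRingHom (ZMod p))) (Int.castRingHom _)] at hy'
  obtain ⟨m, hm⟩ := exists_residue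
    ((Polynomial.map_ne_zero_iff (algebraMap (ZMod p) (AlgebraicClosure (ZMod p))).injective).2 hy0)
    hy' h1
  rw [derivative_map, h2, mul_zero] at hm
  have h := congrArg (fun F : ℤ[X] => (F.map (Int.castRingHom (AlgebraicClosure (ZMod p)))).eval ρ)
    hAB
  simp only [Polynomial.map_add, Polynomial.map_mul, eval_add, eval_mul, hm, h1,
    mul_zero, add_zero, eq_intCast, Polynomial.map_intCast, eval_intCast] at h
  have hdvd := (CharP.intCast_eq_zero_iff (AlgebraicClosure (ZMod p)) p d).1 h.symm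
  have := Nat.le_of_dvd (Int.natAbs_pos.2 hd) (Int.natCast_dvd.1 hdvd)
  omega

/-- **The residues are rational.** -/
theorem exists_rat_residue (hQ : Q ≠ 0) (hd : d ≠ 0) (hAB : A * P + B * Q = C d)
    (hs : SolvableMod P Q N) {r : ℂ} (hr : aeval r Q = 0) :
    ∃ c : ℚ, aeval r P = (c : ℂ) * aeval r (derivative Q) := by
  have hne := aeval_derivative_ne_zero hQ hd hAB hs hr
  have halg : IsAlgebraic ℚ r := ⟨Q.map (Int.castRingHom ℚ),
    (Polynomial.map_ne_zero_iff (Int.castRingHom ℚ).injective_int).2 hQ, by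
      rw [← algebraMap_int_eq, aeval_map_algebraMap]; exact hr⟩
  have haev : ∀ F : ℤ[X], IsAlgebraic ℚ (aeval r F) := fun F => by
    induction F using Polynomial.induction_on' with
    | add f g hf hg => rw [map_add]; exact hf.add hg
    | monomial n z =>
      rw [aeval_monomial, eq_intCast, ← Rat.cast_intCast z]
      exact (isAlgebraic_algebraMap (z : ℚ)).mul (halg.pow n)
  obtain ⟨c, hc⟩ : ∃ c : ℂ, c = aeval r P / aeval r (derivative Q) := ⟨_, rfl⟩
  have hcP : aeval r P = c * aeval r (derivative Q) := by rw [hc, div_mul_cancel₀ _ hne]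
  have hcalg : IsAlgebraic ℤ c := (IsFractionRing.isAlgebraic_iff ℤ ℚ ℂ).2
    (hc ▸ by
      rw [div_eq_mul_inv]
      exact (haev P).mul (haev (derivative Q)).inv)
  obtain ⟨D, hD, hDint⟩ := hcalg.exists_integral_multiple
  rw [Algebra.smul_def, algebraMap_int_eq, eq_intCast] at hDint
  obtain ⟨g, hg⟩ : ∃ g : ℤ[X], g = minpoly ℤ ((D : ℂ) * c) := ⟨_, rfl⟩
  have hgm : g.Monic := hg ▸ minpoly.monic hDint
  have hgirr : Irreducible (g.map (Int.castRingHom ℚ)) :=
    (hgm.irreducible_iff_irreducible_map_fraction_map (K := ℚ)).1 (hg ▸ minpoly.irreducible hDint)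
  have hgd : g.natDegree ≤ 1 := by
    by_contra hgd
    obtain ⟨e, he⟩ : ∃ e, e = g.natDegree := ⟨_, rfl⟩
    obtain ⟨H, hH⟩ : ∃ H : ℤ[X], H = ∑ i ∈ Finset.range (e + 1),
        C (g.coeff i) * (C D * P) ^ i * derivative Q ^ (e - i) := ⟨_, rfl⟩
    have hHr : aeval r H = 0 := by
      have h0 : aeval ((D : ℂ) * c) g = 0 := hg ▸ minpoly.aeval ℤ _
      rw [aeval_eq_sum_range, ← he] at h0
      rw [hH, map_sum]
      refine Eq.trans (Finset.sum_congr rfl fun i hi => ?_)
        ((Finset.sum_mul _ _ _).symm.trans (mul_eq_zero_of_left h0 (aeval r (derivative Q) ^ e)))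
      rw [Finset.mem_range] at hi
      obtain ⟨t, rfl⟩ : ∃ t, e = i + t := ⟨e - i, by omega⟩
      rw [Nat.add_sub_cancel_left, map_mul, map_mul, map_pow, map_pow, map_mul, aeval_C, aeval_C,
        hcP, zsmul_eq_mul, algebraMap_int_eq, eq_intCast, eq_intCast, pow_add]
      ring
    obtain ⟨N₁, hN₁⟩ := exists_reduction halg hr hHr
    obtain ⟨p, ⟨hp, hroot⟩, hlt⟩ :=
      (infinite_no_root hgm hgirr (by omega)).exists_gt (max (max N N₁) d.natAbs)
    have : Fact p.Prime := ⟨hp⟩
    obtain ⟨ρ, h1, h2⟩ := hN₁ p (by omega)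
    obtain ⟨y, hy0, hy⟩ := hs p hp (by omega)
    have hy' := congrArg (Polynomial.map (algebraMap (ZMod p) (AlgebraicClosure (ZMod p)))) hy
    simp only [Polynomial.map_mul, ← derivative_map, Polynomial.map_map,
      RingHom.ext_int ((algebraMap (ZMod p) (AlgebraicClosure (ZMod p))).comp
        (Int.castRingHom (ZMod p))) (Int.castRingHom _)] at hy'
    obtain ⟨m, hm⟩ := exists_residue
      ((Polynomial.map_ne_zero_iff
        (algebraMap (ZMod p) (AlgebraicClosure (ZMod p))).injective).2 hy0) hy' h1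
    rw [derivative_map] at hm
    have hd' : ((derivative Q).map (Int.castRingHom (AlgebraicClosure (ZMod p)))).eval ρ ≠ 0 := by
      intro h0
      rw [h0, mul_zero] at hm
      have h := congrArg
        (fun F : ℤ[X] => (F.map (Int.castRingHom (AlgebraicClosure (ZMod p)))).eval ρ) hAB
      simp only [Polynomial.map_add, Polynomial.map_mul, eval_add, eval_mul, hm,
        h1, mul_zero, add_zero, eq_intCast, Polynomial.map_intCast, eval_intCast] at h
      have hdvd := (CharP.intCast_eq_zero_iff (AlgebraicClosure (ZMod p)) p d).1 h.symm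
      have := Nat.le_of_dvd (Int.natAbs_pos.2 hd) (Int.natCast_dvd.1 hdvd)
      omega
    -- `D m` is a root of `g` modulo `p`
    have hzero : ((g.map (Int.castRingHom (ZMod p))).eval ((D : ZMod p) * m)) = 0 := by
      refine (algebraMap (ZMod p) (AlgebraicClosure (ZMod p))).injective ?_
      refine (mul_eq_zero.1 (Eq.trans ?_ h2)).resolve_right (pow_ne_zero e hd') |>.trans
        (map_zero _).symm
      rw [← eval_map_apply, Polynomial.map_map,
        RingHom.ext_int ((algebraMap (ZMod p) (AlgebraicClosure (ZMod p))).comp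
          (Int.castRingHom (ZMod p))) (Int.castRingHom _), map_mul, map_intCast, map_natCast,
        eval_eq_sum_range' (show (g.map (Int.castRingHom (AlgebraicClosure (ZMod p)))).natDegree
          < e + 1 from Nat.lt_succ_of_le (natDegree_map_le.trans he.ge)), Finset.sum_mul, hH,
        Polynomial.map_sum, eval_finsetSum]
      refine Finset.sum_congr rfl fun i hi => ?_
      rw [Finset.mem_range] at hi
      obtain ⟨t, rfl⟩ : ∃ t, e = i + t := ⟨e - i, by omega⟩
      simp only [Polynomial.map_mul, Polynomial.map_pow, eval_mul, eval_pow,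
        coeff_map, Nat.add_sub_cancel_left, eq_intCast, Polynomial.map_intCast, eval_intCast, hm,
        pow_add]
      ring
    rw [rootsMod, Set.ncard_eq_zero (Set.toFinite _)] at hroot
    exact Set.eq_empty_iff_forall_notMem.1 hroot _ hzero
  have h0 : aeval ((D : ℂ) * c) g = 0 := hg ▸ minpoly.aeval ℤ _
  have hg1 : g.natDegree = 1 := le_antisymm hgd (hg ▸ minpoly.natDegree_pos hDint)
  rw [aeval_eq_sum_range, hg1, Finset.sum_range_succ, Finset.sum_range_one,
    show g.coeff 1 = 1 by rw [← hg1]; exact hgm.coeff_natDegree, zsmul_eq_mul, pow_zero, mul_one,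
    one_zsmul, pow_one] at h0
  refine ⟨-(g.coeff 0 : ℚ) / D, ?_⟩
  rw [hcP]
  congr 1
  have hDc : (D : ℂ) ≠ 0 := Int.cast_ne_zero.2 hD
  push_cast
  rw [eq_div_iff hDc]
  linear_combination h0

end FA.KroneckerHonda
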