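import Mathlib

/-!
# The `p`-curvature of a rank one equation

For the equation `y' = (P / Q) y` the function `(d / dx - P / Q) ^ i (w)` is `N i / Q ^ i` with the
polynomials `N 0 = w`, `N (i + 1) = (N i)' Q - i (N i) Q' - P (N i)`. In characteristic `p` the
polynomial `N p` of `w = 1` vanishes exactly when the equation has a polynomial solution.
-/

set_option autoImplicit false

noncomputable section

namespace FA.KroneckerHonda

open Polynomial

variable {R : Type*} [CommRing R]

/-- The numerator of `(d / dx - P / Q) ^ i w`. -/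
def connIter (P Q w : R[X]) : ℕ → R[X]
  | 0 => w
  | i + 1 => derivative (connIter P Q w i) * Q - (i : R[X]) * connIter P Q w i * derivative Q -
      P * connIter P Q w i

/-- The numerator of the `p`-curvature. -/
def pCurv (P Q : R[X]) (p : ℕ) : R[X] := connIter P Q 1 p

theorem map_connIter {S : Type*} [CommRing S] (φ : R →+* S) (P Q w : R[X]) :
    ∀ i, (connIter P Q w i).map φ = connIter (P.map φ) (Q.map φ) (w.map φ) i
  | 0 => rfl
  | i + 1 => by
    simp only [connIter, Polynomial.map_sub, Polynomial.map_mul, Polynomial.map_natCast,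
      ← derivative_map, map_connIter φ P Q w i]

theorem map_pCurv {S : Type*} [CommRing S] (φ : R →+* S) (P Q : R[X]) (p : ℕ) :
    (pCurv P Q p).map φ = pCurv (P.map φ) (Q.map φ) p := by
  rw [pCurv, map_connIter, Polynomial.map_one, pCurv]

/-- Multiplication by a polynomial of derivative zero. -/
theorem connIter_const_mul (P Q w : R[X]) {c : R[X]} (hc : derivative c = 0) :
    ∀ i, connIter P Q (c * w) i = c * connIter P Q w i
  | 0 => rfl
  | i + 1 => by
    simp only [connIter, connIter_const_mul P Q w hc i, derivative_mul, hc]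
    ring

/-- A solution turns the connection into the derivation. -/
theorem connIter_solution_mul {P Q y : R[X]} (hy : Q * derivative y = P * y) (g : R[X]) :
    ∀ i, connIter P Q (y * g) i = y * Q ^ i * derivative^[i] g
  | 0 => by simp [connIter]
  | i + 1 => by
    simp only [connIter, connIter_solution_mul hy g i, derivative_mul, derivative_pow,
      Function.iterate_succ_apply', map_natCast]
    rcases i with _ | i
    · simp only [Function.iterate_zero_apply]
      linear_combination g * hy
    · simp only [Nat.add_sub_cancel, pow_succ]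
      linear_combination Q ^ i * Q * derivative^[i + 1] g * hy

variable {p : ℕ} [Fact p.Prime] [CharP R p]

theorem iterate_derivative_char_eq_zero (g : R[X]) : derivative^[p] g = 0 := by
  ext m
  rw [coeff_iterate_derivative, coeff_zero, nsmul_eq_mul]
  have h : p ∣ (m + p).descFactorial p :=
    (Nat.dvd_factorial (Fact.out : p.Prime).pos le_rfl).trans
      (Nat.factorial_dvd_descFactorial _ _)
  rw [(CharP.cast_eq_zero_iff R p _).2 h, zero_mul]

variable [IsDomain R]

omit [Fact p.Prime] [IsDomain R] in
theorem derivative_pow_char (y : R[X]) : derivative (y ^ p) = 0 := by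
  rw [derivative_pow, CharP.cast_eq_zero, map_zero, zero_mul, zero_mul]

/-- **A polynomial solution kills the `p`-curvature.** -/
theorem pCurv_eq_zero_of_solution {P Q y : R[X]} (hy0 : y ≠ 0)
    (hy : Q * derivative y = P * y) : pCurv P Q p = 0 := by
  have h1 := connIter_const_mul P Q 1 (derivative_pow_char (p := p) y) p
  have h2 := connIter_solution_mul hy (y ^ (p - 1)) p
  rw [← pow_succ', Nat.sub_add_cancel (Fact.out : p.Prime).one_le,
    iterate_derivative_char_eq_zero, mul_zero] at h2
  rw [mul_one, h2] at h1
  exact (mul_eq_zero.1 h1.symm).resolve_left (pow_ne_zero _ hy0)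

omit [Fact p.Prime] in
/-- **Vanishing `p`-curvature gives a polynomial solution.** -/
theorem exists_solution_of_pCurv_eq_zero {P Q : R[X]} (hQ : Q ≠ 0) (h : pCurv P Q p = 0) :
    ∃ y : R[X], y ≠ 0 ∧ Q * derivative y = P * y := by
  classical
  obtain ⟨i, hi, hne, hnext⟩ :
      ∃ i < p, connIter P Q 1 i ≠ 0 ∧ connIter P Q 1 (i + 1) = 0 := by
    by_contra! hcon
    have hall : ∀ i ≤ p, connIter P Q 1 i ≠ 0 := fun i => by
      induction i with
      | zero => exact fun _ => one_ne_zero
      | succ i ih => exact fun hi => hcon i (by omega) (ih (by omega))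
    exact hall p le_rfl h
  obtain ⟨j, hj⟩ : ∃ j, p = i + (j + 1) := ⟨p - i - 1, by omega⟩
  refine ⟨connIter P Q 1 i * Q ^ (j + 1), mul_ne_zero hne (pow_ne_zero _ hQ), ?_⟩
  have hcast : ((i : R[X]) + ((j : R[X]) + 1)) = 0 := by
    rw [← Nat.cast_add_one j, ← Nat.cast_add, ← hj, CharP.cast_eq_zero]
  rw [connIter] at hnext
  rw [derivative_mul, derivative_pow, map_natCast, Nat.add_sub_cancel, Nat.cast_add_one]
  linear_combination (Q ^ (j + 1)) * hnext +
    (connIter P Q 1 i * Q ^ (j + 1) * derivative Q) * hcast

/-- **The criterion in characteristic `p`.** -/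
theorem pCurv_eq_zero_iff {P Q : R[X]} (hQ : Q ≠ 0) :
    pCurv P Q p = 0 ↔ ∃ y : R[X], y ≠ 0 ∧ Q * derivative y = P * y :=
  ⟨exists_solution_of_pCurv_eq_zero hQ, fun ⟨_, h1, h2⟩ => pCurv_eq_zero_of_solution h1 h2⟩

omit [Fact p.Prime] [CharP R p] in
/-- The multiplicity of a solution at a pole is the residue. -/
theorem exists_residue {P Q y : R[X]} (hy0 : y ≠ 0) (hy : Q * derivative y = P * y) {r : R}
    (hr : Q.eval r = 0) : ∃ m : ℕ, P.eval r = m * (derivative Q).eval r := by
  obtain ⟨S, rfl⟩ := dvd_iff_isRoot.2 hr
  obtain ⟨z, hyz, hz⟩ := exists_eq_pow_rootMultiplicity_mul_and_not_dvd y hy0 r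
  generalize y.rootMultiplicity r = m at hyz
  rw [dvd_iff_isRoot] at hz
  refine ⟨m, mul_right_cancel₀ (b := z.eval r) hz ?_⟩
  have key : S * ((m : R[X]) * z + (X - C r) * derivative z) = P * z := by
    refine mul_left_cancel₀ (pow_ne_zero m (X_sub_C_ne_zero r)) ?_
    rw [hyz, derivative_mul, derivative_pow, derivative_X_sub_C, map_natCast] at hy
    rcases m with _ | m
    · linear_combination hy
    · rw [Nat.add_sub_cancel] at hy
      linear_combination hy
  have h := congrArg (eval r) key
  simp only [eval_mul, eval_add, eval_natCast, eval_sub, eval_X, eval_C, sub_self, zero_mul,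
    add_zero] at h
  simp only [derivative_mul, derivative_X_sub_C, one_mul, eval_add, eval_mul, eval_sub, eval_X,
    eval_C, sub_self, zero_mul, add_zero]
  linear_combination -h

omit [Fact p.Prime] [CharP R p] in
/-- No pole at infinity. -/
theorem natDegree_lt_of_solution {P Q y : R[X]} (hP : P ≠ 0) (hy0 : y ≠ 0)
    (hy : Q * derivative y = P * y) : P.natDegree < Q.natDegree := by
  have hd : derivative y ≠ 0 := fun e => by
    rw [e, mul_zero] at hy
    exact mul_ne_zero hP hy0 hy.symm
  have hQ : Q ≠ 0 := fun e => by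
    rw [e, zero_mul] at hy
    exact mul_ne_zero hP hy0 hy.symm
  have h := congrArg natDegree hy
  rw [natDegree_mul hQ hd, natDegree_mul hP hy0] at h
  have h2 := natDegree_derivative_le y
  have h3 : y.natDegree ≠ 0 := fun e => hd (by
    rw [eq_C_of_natDegree_eq_zero e, derivative_C])
  omega

end FA.KroneckerHonda
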