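import Fermat.Agent.KroneckerHonda.Residues

/-!
# The theorem of Kronecker and Honda

For `P`, `Q ∈ ℤ[X]` the `p`-curvatures of `y' = (P / Q) y` vanish for almost all primes exactly when
some `n`-th power of a solution is rational.
-/

set_option autoImplicit false

noncomputable section

namespace FA.KroneckerHonda

open Polynomial

section field

variable {K : Type*} [CommRing K]

theorem derivative_pow_mul_self (q : K[X]) (k : ℕ) :
    derivative (q ^ k) * q = (k : K[X]) * derivative q * q ^ k := by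
  rcases k with _ | k
  · simp
  · rw [derivative_pow, map_natCast, Nat.add_sub_cancel, pow_succ]
    ring

theorem wronskian_pow {S P u v : K[X]} {m : K[X]}
    (h : S * (derivative u * v - u * derivative v) = m * P * (u * v)) (b : ℕ) :
    S * (derivative (u ^ b) * v ^ b - u ^ b * derivative (v ^ b)) =
      (b : K[X]) * m * P * (u ^ b * v ^ b) := by
  rcases b with _ | b
  · simp
  · rw [derivative_pow, derivative_pow, map_natCast, Nat.add_sub_cancel, pow_succ, pow_succ]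
    linear_combination ((b + 1 : ℕ) : K[X]) * (u ^ b * v ^ b) * h

end field

/-- **Partial fractions with rational residues.** -/
theorem exists_primitive_of_residues (Q : ℚ[X]) : ∀ P : ℚ[X], Q.Monic → P.degree < Q.degree →
    (∀ r : ℂ, aeval r Q = 0 → aeval r (derivative Q) ≠ 0 ∧
      ∃ c : ℚ, aeval r P = (c : ℂ) * aeval r (derivative Q)) →
    ∃ (n : ℕ) (u v : ℚ[X]), 0 < n ∧ u ≠ 0 ∧ v ≠ 0 ∧
      Q * (derivative u * v - u * derivative v) = (n : ℚ[X]) * P * (u * v) := by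
  induction hn : Q.natDegree using Nat.strong_induction_on generalizing Q with
  | _ d ih =>
    subst hn
    intro P hQ hdeg hres
    rcases Nat.eq_zero_or_pos Q.natDegree with h0 | h0
    · have hQ1 : Q = 1 := hQ.natDegree_eq_zero.1 h0
      have hP : P = 0 := by
        rw [hQ1, degree_one, Nat.WithBot.lt_zero_iff, degree_eq_bot] at hdeg
        exact hdeg
      exact ⟨1, 1, 1, one_pos, one_ne_zero, one_ne_zero, by simp [hP]⟩
    have hnu : ¬IsUnit Q := fun h => by
      rw [hQ.isUnit_iff] at h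
      rw [h, natDegree_one] at h0
      exact lt_irrefl 0 h0
    obtain ⟨q, hqm, hqi, hqQ⟩ : ∃ q : ℚ[X], q.Monic ∧ Irreducible q ∧ q ∣ Q := by
      obtain ⟨q, h1, h2, h3⟩ := Q.exists_monic_irreducible_factor hnu
      exact ⟨q, h1, h2, h3⟩
    obtain ⟨S, rfl⟩ := hqQ
    obtain ⟨r, hr⟩ := IsAlgClosed.exists_aeval_eq_zero ℂ q
      (degree_ne_of_natDegree_ne (hqi.natDegree_pos).ne')
    obtain ⟨-, c, hc⟩ := hres r (by rw [map_mul, hr, zero_mul])
    have hmin : q = minpoly ℚ r := minpoly.eq_of_irreducible_of_monic hqi hr hqm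
    obtain ⟨P₁, hP₁⟩ : q ∣ P - C c * derivative q * S := by
      rw [hmin]
      refine minpoly.dvd ℚ r ?_
      rw [← hmin, map_sub, map_mul, map_mul, aeval_C, hc, derivative_mul, map_add, map_mul,
        map_mul, hr, zero_mul, add_zero, eq_ratCast]
      ring
    have hS : S.Monic := hqm.of_mul_monic_left hQ
    have hSd : S.natDegree < (q * S).natDegree := by
      rw [hqm.natDegree_mul hS]
      have := hqi.natDegree_pos
      omega
    have hdeg₁ : P₁.degree < S.degree := by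
      rcases eq_or_ne P₁ 0 with rfl | hne
      · rw [degree_zero]
        exact bot_lt_iff_ne_bot.2 fun h => hS.ne_zero (degree_eq_bot.1 h)
      rw [degree_eq_natDegree hne, degree_eq_natDegree hS.ne_zero, Nat.cast_lt]
      have hlt : (P - C c * derivative q * S).natDegree < (q * S).natDegree := by
        refine (natDegree_lt_iff_degree_lt ?_).2 ?_
        · rw [hP₁]; exact mul_ne_zero hqm.ne_zero hne
        · rw [← degree_eq_natDegree hQ.ne_zero]
          refine (degree_sub_le _ _).trans_lt (max_lt hdeg ?_)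
          rw [degree_mul, degree_mul, degree_mul]
          refine WithBot.add_lt_add_right (fun h => hS.ne_zero (degree_eq_bot.1 h)) ?_
          calc (C c).degree + (derivative q).degree ≤ 0 + (derivative q).degree := by
                gcongr; exact degree_C_le
            _ < q.degree := by rw [zero_add]; exact degree_derivative_lt hqm.ne_zero
      rw [hP₁, hqm.natDegree_mul' hne, hqm.natDegree_mul hS] at hlt
      omega
    have hres₁ : ∀ s : ℂ, aeval s S = 0 → aeval s (derivative S) ≠ 0 ∧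
        ∃ c : ℚ, aeval s P₁ = (c : ℂ) * aeval s (derivative S) := fun s hs => by
      obtain ⟨hne, e, he⟩ := hres s (by rw [map_mul, hs, mul_zero])
      rw [derivative_mul, map_add, map_mul, map_mul, hs, mul_zero, zero_add] at hne he
      obtain ⟨hqs, hS's⟩ := mul_ne_zero_iff.1 hne
      refine ⟨hS's, e, mul_left_cancel₀ hqs ?_⟩
      have h := congrArg (aeval s) hP₁
      rw [map_sub, map_mul, map_mul, map_mul, hs, mul_zero, sub_zero, he] at h
      linear_combination -h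
    obtain ⟨n₁, u₁, v₁, hn₁, hu₁, hv₁, h₁⟩ := ih S.natDegree hSd S rfl P₁ hS hdeg₁ hres₁
    obtain ⟨b, hb⟩ : ∃ b, b = c.den := ⟨_, rfl⟩
    obtain ⟨i, hi⟩ : ∃ i, i = c.num.toNat * n₁ := ⟨_, rfl⟩
    obtain ⟨j, hj⟩ : ∃ j, j = (-c.num).toNat * n₁ := ⟨_, rfl⟩
    have hij : (i : ℚ) - j = (n₁ * b : ℕ) * c := by
      have h : ((c.num.toNat : ℤ) - (-c.num).toNat : ℤ) = c.num := by omega
      have h' : (c.num.toNat : ℚ) - (-c.num).toNat = c.num := by exact_mod_cast h
      rw [hi, hj, hb]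
      push_cast
      rw [← Rat.mul_den_eq_num c] at h'
      linear_combination (n₁ : ℚ) * h'
    refine ⟨n₁ * b, u₁ ^ b * q ^ i, v₁ ^ b * q ^ j, Nat.mul_pos hn₁ (hb ▸ c.den_pos),
      mul_ne_zero (pow_ne_zero _ hu₁) (pow_ne_zero _ hqm.ne_zero),
      mul_ne_zero (pow_ne_zero _ hv₁) (pow_ne_zero _ hqm.ne_zero), ?_⟩
    have hw := wronskian_pow (S := S) (m := (n₁ : ℚ[X])) h₁ b
    have hqi' := derivative_pow_mul_self q i
    have hqj := derivative_pow_mul_self q j
    have hC : (i : ℚ[X]) - j = ((n₁ * b : ℕ) : ℚ[X]) * C c := by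
      rw [← C_eq_natCast, ← C_eq_natCast, ← C_sub, hij, C_mul, C_eq_natCast]
    have hP : P = q * P₁ + C c * derivative q * S := by linear_combination hP₁
    rw [hP]
    simp only [derivative_mul, Nat.cast_mul]
    rw [Nat.cast_mul] at hC
    linear_combination (q * q ^ i * q ^ j) * hw + (S * u₁ ^ b * v₁ ^ b * q ^ j) * hqi' -
      (S * u₁ ^ b * v₁ ^ b * q ^ i) * hqj +
      (S * derivative q * u₁ ^ b * v₁ ^ b * q ^ i * q ^ j) * hC

variable {P Q : ℤ[X]}

/-- **From the `p`-curvatures to an algebraic solution.** -/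
theorem exists_relation_of_pCurv (hQ : Q ≠ 0)
    (h : {p : ℕ | p.Prime ∧ (pCurv P Q p).map (Int.castRingHom (ZMod p)) ≠ 0}.Finite) :
    ∃ (n : ℕ) (u v : ℤ[X]), 0 < n ∧ u ≠ 0 ∧ v ≠ 0 ∧
      Q * (derivative u * v - u * derivative v) = (n : ℤ[X]) * P * (u * v) := by
  classical
  obtain ⟨N, hN⟩ := h.bddAbove
  -- coprime numerator and denominator
  obtain ⟨P₀, Q₀, A, B, d, hQ₀, hd, hAB, hPQ⟩ : ∃ (P₀ Q₀ A B : ℤ[X]) (d : ℤ), Q₀ ≠ 0 ∧ d ≠ 0 ∧
      A * P₀ + B * Q₀ = C d ∧ P * Q₀ = Q * P₀ := by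
    obtain ⟨φ, hφ⟩ : ∃ φ, φ = Int.castRingHom ℚ := ⟨_, rfl⟩
    have hQ' : Q.map φ ≠ 0 := hφ ▸
      (Polynomial.map_ne_zero_iff (Int.castRingHom ℚ).injective_int).2 hQ
    let : GCDMonoid ℚ[X] := EuclideanDomain.gcdMonoid ℚ[X]
    obtain ⟨g, hg⟩ : ∃ g, g = GCDMonoid.gcd (P.map φ) (Q.map φ) := ⟨_, rfl⟩
    have hg0 : g ≠ 0 := hg ▸ gcd_ne_zero_of_right hQ'
    have hgP : g * (P.map φ / g) = P.map φ :=
      EuclideanDomain.mul_div_cancel' hg0 (hg ▸ gcd_dvd_left _ _)
    have hgQ : g * (Q.map φ / g) = Q.map φ :=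
      EuclideanDomain.mul_div_cancel' hg0 (hg ▸ gcd_dvd_right _ _)
    obtain ⟨a, b, hab⟩ := hg ▸ isCoprime_div_gcd_div_gcd (p := P.map φ) hQ'
    obtain ⟨s, P₀, hs, hP₀⟩ := exists_integral_multiple (P.map φ / g)
    obtain ⟨t, Q₀, ht, hQ₀⟩ := exists_integral_multiple (Q.map φ / g)
    obtain ⟨e₁, A, he₁, hA⟩ := exists_integral_multiple a
    obtain ⟨e₂, B, he₂, hB⟩ := exists_integral_multiple b
    refine ⟨C t * P₀, C s * Q₀, C e₂ * A, C e₁ * B, s * t * e₁ * e₂, ?_,
      mul_ne_zero (mul_ne_zero (mul_ne_zero hs ht) he₁) he₂, ?_, ?_⟩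
    · intro e
      have e' := congrArg (Polynomial.map (Int.castRingHom ℚ)) e
      rw [Polynomial.map_mul, map_C, hQ₀, Polynomial.map_zero] at e'
      rcases mul_eq_zero.1 e' with e'' | e''
      · exact hs (by simpa using e'')
      rcases mul_eq_zero.1 e'' with e3 | e3
      · exact ht (by simpa using e3)
      · exact hQ' (by rw [← hgQ, e3, mul_zero])
    · refine Polynomial.map_injective (Int.castRingHom ℚ) Int.cast_injective ?_
      simp only [Polynomial.map_add, Polynomial.map_mul, map_C, hP₀, hQ₀, hA, hB,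
        Int.coe_castRingHom, C_mul]
      linear_combination (C (s : ℚ) * C (t : ℚ) * C (e₁ : ℚ) * C (e₂ : ℚ)) * hab
    · refine Polynomial.map_injective (Int.castRingHom ℚ) Int.cast_injective ?_
      simp only [Polynomial.map_mul, map_C, hP₀, hQ₀, Int.coe_castRingHom]
      rw [← hφ]
      linear_combination (C (s : ℚ) * C (t : ℚ) * (P.map φ / g)) * hgQ -
        (C (s : ℚ) * C (t : ℚ) * (Q.map φ / g)) * hgP
  -- solvability modulo almost all primes
  have hsolv : SolvableMod P₀ Q₀ (max N Q.leadingCoeff.natAbs) := fun p hp hlt => by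
    have : Fact p.Prime := ⟨hp⟩
    have hQp : Q.map (Int.castRingHom (ZMod p)) ≠ 0 := fun e => by
      have h1 := congrArg (fun F : (ZMod p)[X] => F.coeff Q.natDegree) e
      simp only [coeff_map, coeff_natDegree, coeff_zero, eq_intCast,
        ZMod.intCast_zmod_eq_zero_iff_dvd] at h1
      have := Nat.le_of_dvd (Int.natAbs_pos.2 (leadingCoeff_ne_zero.2 hQ)) (Int.natCast_dvd.1 h1)
      omega
    have hcurv : (pCurv P Q p).map (Int.castRingHom (ZMod p)) = 0 := by
      by_contra hne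
      have := hN ⟨hp, hne⟩
      omega
    rw [map_pCurv] at hcurv
    obtain ⟨y, hy0, hy⟩ := exists_solution_of_pCurv_eq_zero hQp hcurv
    refine ⟨y, hy0, mul_left_cancel₀ hQp ?_⟩
    have h1 := congrArg (Polynomial.map (Int.castRingHom (ZMod p))) hPQ
    rw [Polynomial.map_mul, Polynomial.map_mul] at h1
    linear_combination (Q₀.map (Int.castRingHom (ZMod p))) * hy + y * h1
  obtain ⟨l, hl⟩ : ∃ l : ℚ, l = (Q₀.leadingCoeff : ℚ) := ⟨_, rfl⟩
  have hl0 : l ≠ 0 := hl ▸ Int.cast_ne_zero.2 (leadingCoeff_ne_zero.2 hQ₀)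
  obtain ⟨Qm, hQm⟩ : ∃ Qm, Qm = C l⁻¹ * Q₀.map (Int.castRingHom ℚ) := ⟨_, rfl⟩
  obtain ⟨Pm, hPm⟩ : ∃ Pm, Pm = C l⁻¹ * P₀.map (Int.castRingHom ℚ) := ⟨_, rfl⟩
  have hmonic : Qm.Monic := by
    rw [hQm, Monic, leadingCoeff_mul, leadingCoeff_C,
      leadingCoeff_map_of_injective (Int.castRingHom ℚ).injective_int, eq_intCast, ← hl,
      inv_mul_cancel₀ hl0]
  have hdeg : Pm.degree < Qm.degree := by
    rw [hPm, hQm, degree_mul, degree_mul, degree_C (inv_ne_zero hl0), zero_add, zero_add,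
      degree_map_eq_of_injective (Int.castRingHom ℚ).injective_int,
      degree_map_eq_of_injective (Int.castRingHom ℚ).injective_int]
    rcases eq_or_ne P₀ 0 with rfl | hP₀
    · rw [degree_zero]
      exact bot_lt_iff_ne_bot.2 fun h => hQ₀ (degree_eq_bot.1 h)
    rw [degree_eq_natDegree hP₀, degree_eq_natDegree hQ₀, Nat.cast_lt]
    obtain ⟨p, hlt, hp⟩ := Nat.exists_infinite_primes
      (max (max N Q.leadingCoeff.natAbs) (max P₀.leadingCoeff.natAbs Q₀.leadingCoeff.natAbs) + 1)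
    have : Fact p.Prime := ⟨hp⟩
    obtain ⟨y, hy0, hy⟩ := hsolv p hp (by omega)
    have hlead : ∀ F : ℤ[X], F ≠ 0 → F.leadingCoeff.natAbs < p →
        (Int.castRingHom (ZMod p)) F.leadingCoeff ≠ 0 := fun F hF hFp e => by
      rw [eq_intCast, ZMod.intCast_zmod_eq_zero_iff_dvd] at e
      have := Nat.le_of_dvd (Int.natAbs_pos.2 (leadingCoeff_ne_zero.2 hF)) (Int.natCast_dvd.1 e)
      omega
    have hPl := hlead P₀ hP₀ (by omega)
    have hlt' := natDegree_lt_of_solution (fun e => hPl (by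
      have h1 := congrArg (fun F : (ZMod p)[X] => F.coeff P₀.natDegree) e
      simpa [coeff_map] using h1)) hy0 hy
    rwa [natDegree_map_of_leadingCoeff_ne_zero _ hPl,
      natDegree_map_of_leadingCoeff_ne_zero _ (hlead Q₀ hQ₀ (by omega))] at hlt'
  have hres : ∀ r : ℂ, aeval r Qm = 0 → aeval r (derivative Qm) ≠ 0 ∧
      ∃ c : ℚ, aeval r Pm = (c : ℂ) * aeval r (derivative Qm) := fun r hr => by
    have hl' : ((l⁻¹ : ℚ) : ℂ) ≠ 0 := Rat.cast_ne_zero.2 (inv_ne_zero hl0)
    simp only [hQm, hPm, derivative_C_mul, derivative_map, map_mul, aeval_C, eq_ratCast,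
      ← algebraMap_int_eq, aeval_map_algebraMap, mul_eq_zero, hl', false_or] at hr ⊢
    refine ⟨mul_ne_zero hl' (aeval_derivative_ne_zero hQ₀ hd hAB hsolv hr), ?_⟩
    obtain ⟨c, hc⟩ := exists_rat_residue hQ₀ hd hAB hsolv hr
    exact ⟨c, by rw [hc]; ring⟩
  obtain ⟨n, u, v, hn, hu, hv, huv⟩ := exists_primitive_of_residues Qm Pm hmonic hdeg hres
  obtain ⟨s, U, hs, hU⟩ := exists_integral_multiple u
  obtain ⟨t, V, ht, hV⟩ := exists_integral_multiple v
  have hne : ∀ {F : ℤ[X]} {f : ℚ[X]} {z : ℤ}, F.map (Int.castRingHom ℚ) = C (z : ℚ) * f →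
      z ≠ 0 → f ≠ 0 → F ≠ 0 := fun hF hz hf e => by
    rw [e, Polynomial.map_zero] at hF
    exact mul_ne_zero (C_ne_zero.2 (Int.cast_ne_zero.2 hz)) hf hF.symm
  refine ⟨n, U, V, hn, hne hU hs hu, hne hV ht hv, mul_left_cancel₀ hQ₀ ?_⟩
  refine Polynomial.map_injective (Int.castRingHom ℚ) Int.cast_injective ?_
  have h1 := congrArg (Polynomial.map (Int.castRingHom ℚ)) hPQ
  simp only [Polynomial.map_mul, Polynomial.map_sub, Polynomial.map_natCast, ← derivative_map, hU,
    hV, derivative_C_mul] at h1 ⊢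
  rw [hQm, hPm] at huv
  refine mul_left_cancel₀ (C_ne_zero.2 (inv_ne_zero hl0)) ?_
  linear_combination (Q.map (Int.castRingHom ℚ) * C (s : ℚ) * C (t : ℚ)) * huv -
    (C l⁻¹ * (n : ℚ[X]) * C (s : ℚ) * u * C (t : ℚ) * v) * h1

/-- **From an algebraic solution to the `p`-curvatures.** -/
theorem pCurv_finite_of_relation {n : ℕ} {u v : ℤ[X]} (hn : 0 < n) (hu : u ≠ 0)
    (hv : v ≠ 0) (h : Q * (derivative u * v - u * derivative v) = (n : ℤ[X]) * P * (u * v)) :
    {p : ℕ | p.Prime ∧ (pCurv P Q p).map (Int.castRingHom (ZMod p)) ≠ 0}.Finite := by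
  refine (Set.finite_Iic (max n
    (max u.leadingCoeff.natAbs v.leadingCoeff.natAbs))).subset fun p hp => ?_
  obtain ⟨hp, hne⟩ := hp
  by_contra hgt
  rw [Set.mem_Iic, not_le] at hgt
  have : Fact p.Prime := ⟨hp⟩
  obtain ⟨φ, hφ⟩ : ∃ φ, φ = Int.castRingHom (ZMod p) := ⟨_, rfl⟩
  rw [← hφ] at hne
  have hmap : ∀ F : ℤ[X], F ≠ 0 → F.leadingCoeff.natAbs < p → F.map φ ≠ 0 := fun F hF hFp e => by
    have h1 := congrArg (fun G : (ZMod p)[X] => G.coeff F.natDegree) e
    simp only [coeff_map, coeff_natDegree, coeff_zero, hφ, eq_intCast,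
      ZMod.intCast_zmod_eq_zero_iff_dvd] at h1
    have := Nat.le_of_dvd (Int.natAbs_pos.2 (leadingCoeff_ne_zero.2 hF)) (Int.natCast_dvd.1 h1)
    omega
  have hu' := hmap u hu (by omega)
  have hv' := hmap v hv (by omega)
  have hn' : (n : ZMod p) ≠ 0 := fun e => by
    rw [ZMod.natCast_eq_zero_iff] at e
    have := Nat.le_of_dvd hn e
    omega
  obtain ⟨e, he⟩ : ∃ e, e = ((n : ZMod p)⁻¹).val := ⟨_, rfl⟩
  have hen : (e : (ZMod p)[X]) * (n : (ZMod p)[X]) = 1 := by
    rw [← C_eq_natCast, ← C_eq_natCast, ← C_mul, he, ZMod.natCast_zmod_val, inv_mul_cancel₀ hn',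
      C_1]
  have hep : e ≤ p := he ▸ (ZMod.val_lt _).le
  obtain ⟨f, hf⟩ : ∃ f, f = p - e := ⟨_, rfl⟩
  have hfe : (e : (ZMod p)[X]) + (f : (ZMod p)[X]) = 0 := by
    rw [← Nat.cast_add, hf, Nat.add_sub_cancel' hep, CharP.cast_eq_zero]
  apply hne
  rw [map_pCurv]
  refine pCurv_eq_zero_of_solution (y := u.map φ ^ e * v.map φ ^ f)
    (mul_ne_zero (pow_ne_zero _ hu') (pow_ne_zero _ hv'))
    (mul_right_cancel₀ (mul_ne_zero hu' hv') ?_)
  have h' := congrArg (Polynomial.map φ) h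
  simp only [Polynomial.map_mul, Polynomial.map_sub, Polynomial.map_natCast,
    ← derivative_map] at h'
  have hue := derivative_pow_mul_self (u.map φ) e
  have hvf := derivative_pow_mul_self (v.map φ) f
  rw [derivative_mul]
  linear_combination (Q.map φ * v.map φ ^ f * v.map φ) * hue +
    (Q.map φ * u.map φ ^ e * u.map φ) * hvf + ((e : (ZMod p)[X]) * u.map φ ^ e * v.map φ ^ f) * h' +
    (Q.map φ * u.map φ ^ e * v.map φ ^ f * u.map φ * derivative (v.map φ)) * hfe +
    (P.map φ * u.map φ ^ e * v.map φ ^ f * u.map φ * v.map φ) * hen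

/-- **The theorem of Kronecker and Honda.** -/
theorem pCurv_finite_iff (hQ : Q ≠ 0) :
    {p : ℕ | p.Prime ∧ (pCurv P Q p).map (Int.castRingHom (ZMod p)) ≠ 0}.Finite ↔
      ∃ (n : ℕ) (u v : ℤ[X]), 0 < n ∧ u ≠ 0 ∧ v ≠ 0 ∧
        Q * (derivative u * v - u * derivative v) = (n : ℤ[X]) * P * (u * v) :=
  ⟨exists_relation_of_pCurv hQ, fun ⟨_, _, _, hn, hu, hv, h⟩ =>
    pCurv_finite_of_relation hn hu hv h⟩

end FA.KroneckerHonda
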