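import Fermat.Agent.KroneckerHonda.Main

/-!
# The formal solution

The formal solution of `y' = (P / Q) y` with `y 0 = 1` is algebraic over `ℚ(x)` exactly when the
`p`-curvatures vanish for almost all primes.
-/

set_option autoImplicit false

noncomputable section

namespace FA.KroneckerHonda

open Polynomial

/-- The equation has a formal solution. -/
theorem exists_formal_solution (P Q : ℚ[X]) (hQ : Q.coeff 0 ≠ 0) :
    ∃ f : PowerSeries ℚ, PowerSeries.constantCoeff f = 1 ∧
      (Q : PowerSeries ℚ) * PowerSeries.derivative ℚ f = (P : PowerSeries ℚ) * f := by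
  obtain ⟨w, hw⟩ : ∃ w : PowerSeries ℚ,
      w = (P : PowerSeries ℚ) * ((Q : PowerSeries ℚ))⁻¹ := ⟨_, rfl⟩
  obtain ⟨g, hg⟩ : ∃ g : PowerSeries ℚ, g = PowerSeries.mk fun n =>
      if n = 0 then 0 else PowerSeries.coeff (n - 1) w / n := ⟨_, rfl⟩
  have hg0 : PowerSeries.constantCoeff g = 0 := by
    rw [hg, ← PowerSeries.coeff_zero_eq_constantCoeff_apply, PowerSeries.coeff_mk, if_pos rfl]
  have hgd : PowerSeries.derivative ℚ g = w := by
    ext n
    rw [PowerSeries.coeff_derivative, hg, PowerSeries.coeff_mk, if_neg n.succ_ne_zero,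
      Nat.add_sub_cancel, Nat.cast_add_one, div_mul_cancel₀ _ (Nat.cast_add_one_ne_zero n)]
  have hsub : PowerSeries.HasSubst g := PowerSeries.HasSubst.of_constantCoeff_zero' hg0
  refine ⟨PowerSeries.subst g (PowerSeries.exp ℚ), ?_, ?_⟩
  · have h := congrArg (fun e : PowerSeries ℚ => PowerSeries.constantCoeff e)
      (sub_add_cancel (PowerSeries.exp ℚ) 1)
    obtain ⟨e, he⟩ : PowerSeries.X ∣ PowerSeries.exp ℚ - 1 :=
      PowerSeries.X_dvd_iff.2 (by simp)
    rw [← sub_add_cancel (PowerSeries.exp ℚ) 1, he, ← PowerSeries.coe_substAlgHom hsub]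
    rw [map_add, map_mul, map_one, map_add, map_mul, map_one,
      PowerSeries.coe_substAlgHom hsub, PowerSeries.subst_X hsub, hg0, zero_mul, zero_add]
  · rw [PowerSeries.derivative_subst hsub, PowerSeries.derivative_exp, hgd, hw]
    have hQ' : PowerSeries.constantCoeff (Q : PowerSeries ℚ) ≠ 0 := by
      rwa [Polynomial.constantCoeff_coe]
    calc _ = (P : PowerSeries ℚ) * ((Q : PowerSeries ℚ) * ((Q : PowerSeries ℚ))⁻¹) *
          PowerSeries.subst g (PowerSeries.exp ℚ) := by ring
      _ = _ := by rw [PowerSeries.mul_inv_cancel _ hQ', mul_one]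

/-- Series with the same logarithmic derivative are proportional. -/
theorem exists_eq_smul_of_wronskian {H G : PowerSeries ℚ} (hG : G ≠ 0)
    (h : PowerSeries.derivative ℚ H * G = H * PowerSeries.derivative ℚ G) :
    ∃ c : ℚ, H = c • G := by
  classical
  have hexG : ∃ n, PowerSeries.coeff n G ≠ 0 := by
    by_contra! h0
    exact hG (PowerSeries.ext fun n => by simp [h0 n])
  obtain ⟨g, hg, hgmin⟩ : ∃ g, PowerSeries.coeff g G ≠ 0 ∧ ∀ n < g, PowerSeries.coeff n G = 0 :=
    ⟨Nat.find hexG, Nat.find_spec hexG, fun n hn => not_not.1 (Nat.find_min hexG hn)⟩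
  refine ⟨PowerSeries.coeff g H / PowerSeries.coeff g G, ?_⟩
  obtain ⟨K, hK⟩ : ∃ K, K = H - (PowerSeries.coeff g H / PowerSeries.coeff g G) • G := ⟨_, rfl⟩
  rw [← sub_eq_zero, ← hK]
  by_contra hK0
  have hexK : ∃ n, PowerSeries.coeff n K ≠ 0 := by
    by_contra! h0
    exact hK0 (PowerSeries.ext fun n => by simp [h0 n])
  obtain ⟨k, hk, hkmin⟩ : ∃ k, PowerSeries.coeff k K ≠ 0 ∧ ∀ n < k, PowerSeries.coeff n K = 0 :=
    ⟨Nat.find hexK, Nat.find_spec hexK, fun n hn => not_not.1 (Nat.find_min hexK hn)⟩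
  have hKg : PowerSeries.coeff g K = 0 := by
    rw [hK, map_sub, PowerSeries.coeff_smul, smul_eq_mul, div_mul_cancel₀ _ hg, sub_self]
  have hkg : k ≠ g := fun e => hk (e ▸ hKg)
  have hW : PowerSeries.derivative ℚ K * G = K * PowerSeries.derivative ℚ G := by
    rw [hK, map_sub, Derivation.map_smul, sub_mul, sub_mul, h, smul_mul_assoc, smul_mul_assoc,
      mul_comm (PowerSeries.derivative ℚ G) G]
  -- compare the lowest coefficients of `X (K' G - K G')`
  have h2 : PowerSeries.coeff (k + g)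
      (PowerSeries.X * PowerSeries.derivative ℚ K * G -
        K * (PowerSeries.X * PowerSeries.derivative ℚ G)) = 0 := by
    rw [mul_assoc, hW, show K * (PowerSeries.X * PowerSeries.derivative ℚ G) =
      PowerSeries.X * (K * PowerSeries.derivative ℚ G) by ring, sub_self, map_zero]
  have hXd : ∀ (F : PowerSeries ℚ) (n : ℕ),
      PowerSeries.coeff n (PowerSeries.X * PowerSeries.derivative ℚ F) =
        PowerSeries.coeff n F * n := fun F n => by
    rcases n with _ | n
    · simp
    · rw [PowerSeries.coeff_succ_X_mul, PowerSeries.coeff_derivative, Nat.cast_add_one]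
  rw [map_sub, PowerSeries.coeff_mul, PowerSeries.coeff_mul, ← Finset.sum_sub_distrib,
    Finset.sum_eq_single (k, g)] at h2
  · rw [hXd, hXd] at h2
    have h3 : PowerSeries.coeff k K * PowerSeries.coeff g G * ((k : ℚ) - g) = 0 := by
      linear_combination h2
    refine mul_ne_zero (mul_ne_zero hk hg) ?_ h3
    exact sub_ne_zero.2 (Nat.cast_injective.ne hkg)
  · rintro ⟨i, j⟩ hij hne
    rw [Finset.HasAntidiagonal.mem_antidiagonal] at hij
    rw [hXd, hXd]
    rcases lt_trichotomy i k with hi | rfl | hi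
    · simp [hkmin i hi]
    · exact absurd (by rw [show j = g by omega]) hne
    · simp [hgmin j (by omega)]
  · intro h0
    exact (h0 (by simp [Finset.HasAntidiagonal.mem_antidiagonal])).elim

variable {P Q : ℤ[X]}

/-- **Honda's form of the theorem.** -/
theorem isAlgebraic_iff (hQ0 : Q.coeff 0 ≠ 0) {f : PowerSeries ℚ}
    (hf0 : PowerSeries.constantCoeff f = 1)
    (hf : ((Q.map (Int.castRingHom ℚ) : ℚ[X]) : PowerSeries ℚ) * PowerSeries.derivative ℚ f =
      ((P.map (Int.castRingHom ℚ) : ℚ[X]) : PowerSeries ℚ) * f) :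
    IsAlgebraic ℚ[X] f ↔
      {p : ℕ | p.Prime ∧ (pCurv P Q p).map (Int.castRingHom (ZMod p)) ≠ 0}.Finite := by
  classical
  have hQ : Q ≠ 0 := fun e => hQ0 (by rw [e, coeff_zero])
  have hf' : f ≠ 0 := fun e => by rw [e, map_zero] at hf0; exact zero_ne_one hf0
  obtain ⟨φ, hφ⟩ : ∃ φ, φ = Int.castRingHom ℚ := ⟨_, rfl⟩
  rw [← hφ] at hf
  have hQ' : Q.map φ ≠ 0 := hφ ▸
    (Polynomial.map_ne_zero_iff (Int.castRingHom ℚ).injective_int).2 hQ
  have hco : ∀ c : ℚ[X], algebraMap ℚ[X] (PowerSeries ℚ) c = (c : PowerSeries ℚ) := fun c => by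
    simp [PowerSeries.algebraMap_apply']
  have hnc : ∀ j : ℕ, ((j : ℚ[X]) : PowerSeries ℚ) = (j : PowerSeries ℚ) := fun j =>
    map_natCast Polynomial.coeToPowerSeries.ringHom j
  have hd : ∀ (c : ℚ[X]) (j : ℕ), (Q.map φ : PowerSeries ℚ) *
      PowerSeries.derivative ℚ ((c : PowerSeries ℚ) * f ^ j) =
        ((Q.map φ * derivative c + (j : ℚ[X]) * P.map φ * c : ℚ[X]) : PowerSeries ℚ) * f ^ j :=
    fun c j => by
      rw [Derivation.leibniz, smul_eq_mul, smul_eq_mul, PowerSeries.derivative_coe,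
        PowerSeries.derivative_pow]
      rcases j with _ | j
      · simp only [Polynomial.coe_add, Polynomial.coe_mul, hnc]
        push_cast; ring
      · rw [Nat.add_sub_cancel, pow_succ]
        simp only [Polynomial.coe_add, Polynomial.coe_mul, hnc]
        push_cast
        linear_combination ((j : PowerSeries ℚ) + 1) * (c : PowerSeries ℚ) * f ^ j * hf
  constructor
  · intro halg
    obtain ⟨m, ⟨R, hR0, hRm, hRf⟩, hmin⟩ :
        ∃ m, (∃ R : ℚ[X][X], R ≠ 0 ∧ R.natDegree = m ∧ aeval f R = 0) ∧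
          ∀ R : ℚ[X][X], R ≠ 0 → aeval f R = 0 → m ≤ R.natDegree := by
      have hex : ∃ m, ∃ R : ℚ[X][X], R ≠ 0 ∧ R.natDegree = m ∧ aeval f R = 0 := by
        obtain ⟨R, h1, h2⟩ := halg
        exact ⟨_, R, h1, rfl, h2⟩
      exact ⟨Nat.find hex, Nat.find_spec hex, fun R h1 h2 => Nat.find_min' hex ⟨R, h1, rfl, h2⟩⟩
    rw [aeval_eq_sum_range, hRm] at hRf
    simp only [Algebra.smul_def, hco] at hRf
    obtain ⟨cm, hcm⟩ : ∃ cm, cm = R.coeff m := ⟨_, rfl⟩
    have hcm0 : cm ≠ 0 := by
      rw [hcm, ← hRm, coeff_natDegree]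
      exact leadingCoeff_ne_zero.2 hR0
    obtain ⟨j, hjm, hcj⟩ : ∃ j < m, R.coeff j ≠ 0 := by
      by_contra! hall
      rw [Finset.sum_range_succ, Finset.sum_eq_zero fun i hi => by
        rw [hall i (Finset.mem_range.1 hi), Polynomial.coe_zero, zero_mul], zero_add,
        mul_eq_zero, pow_eq_zero_iff', Polynomial.coe_eq_zero_iff, ← hcm] at hRf
      rcases hRf with h | h
      · exact hcm0 h
      · exact hf' h.1
    obtain ⟨W, hW⟩ : ∃ W : ℕ → ℚ[X], W = fun i =>
        cm * (Q.map φ * derivative (R.coeff i) + (i : ℚ[X]) * P.map φ * R.coeff i) -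
          (Q.map φ * derivative cm + (m : ℚ[X]) * P.map φ * cm) * R.coeff i := ⟨_, rfl⟩
    have hWsum : ∑ i ∈ Finset.range m, (W i : PowerSeries ℚ) * f ^ i = 0 := by
      have h1 : ∑ i ∈ Finset.range (m + 1), ((Q.map φ * derivative (R.coeff i) +
          (i : ℚ[X]) * P.map φ * R.coeff i : ℚ[X]) : PowerSeries ℚ) * f ^ i = 0 := by
        rw [← Finset.sum_congr rfl fun i _ => hd (R.coeff i) i, ← Finset.mul_sum, ← map_sum, hRf,
          map_zero, mul_zero]
      have hWm : (W m : PowerSeries ℚ) * f ^ m = 0 := by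
        simp only [hW, ← hcm]
        rw [show cm * (Q.map φ * derivative cm + (m : ℚ[X]) * P.map φ * cm) -
          (Q.map φ * derivative cm + (m : ℚ[X]) * P.map φ * cm) * cm = 0 by ring,
          Polynomial.coe_zero, zero_mul]
      have h2 : ∑ i ∈ Finset.range (m + 1), (W i : PowerSeries ℚ) * f ^ i = 0 := by
        simp only [hW, Polynomial.coe_sub, Polynomial.coe_mul, sub_mul, Finset.sum_sub_distrib,
          mul_assoc, ← Finset.mul_sum]
        simp only [← mul_assoc]
        simp only [mul_assoc] at h1 hRf ⊢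
        rw [h1, hRf, mul_zero, mul_zero, sub_zero]
      rwa [Finset.sum_range_succ, hWm, add_zero] at h2
    have hW0 : W j = 0 := by
      obtain ⟨T, hT⟩ : ∃ T : ℚ[X][X], T = ∑ i ∈ Finset.range m, C (W i) * X ^ i := ⟨_, rfl⟩
      have hTf : aeval f T = 0 := by
        rw [hT, map_sum]
        simp only [map_mul, map_pow, aeval_C, aeval_X, hco]
        exact hWsum
      have hT0 : T = 0 := by
        by_contra hT0
        have hle := hmin T hT0 hTf
        have hlt : T.natDegree ≤ m - 1 := hT ▸ natDegree_sum_le_of_forall_le _ _ fun i hi =>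
          (natDegree_C_mul_X_pow_le _ _).trans (by rw [Finset.mem_range] at hi; omega)
        omega
      have := congrArg (fun F : ℚ[X][X] => F.coeff j) hT0
      simpa [hT, Finset.mem_range, hjm, finsetSum_coeff, coeff_C_mul_X_pow] using this
    rw [hW] at hW0
    obtain ⟨n, hn⟩ : ∃ n, m = j + (n + 1) := ⟨m - j - 1, by omega⟩
    obtain ⟨s, U, hs, hU⟩ := exists_integral_multiple (R.coeff j)
    obtain ⟨t, V, ht, hV⟩ := exists_integral_multiple cm
    have hne : ∀ {F : ℤ[X]} {g : ℚ[X]} {z : ℤ}, F.map (Int.castRingHom ℚ) = C (z : ℚ) * g →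
        z ≠ 0 → g ≠ 0 → F ≠ 0 := fun hF hz hg e => by
      rw [e, Polynomial.map_zero] at hF
      exact mul_ne_zero (C_ne_zero.2 (Int.cast_ne_zero.2 hz)) hg hF.symm
    refine pCurv_finite_of_relation (n := n + 1) n.succ_pos (hne hU hs hcj) (hne hV ht hcm0) ?_
    refine Polynomial.map_injective (Int.castRingHom ℚ) Int.cast_injective ?_
    simp only [Polynomial.map_mul, Polynomial.map_sub, Polynomial.map_natCast, ← derivative_map,
      hU, hV, derivative_C_mul]
    rw [← hφ]
    rw [hn] at hW0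
    push_cast at hW0 ⊢
    linear_combination (C (s : ℚ) * C (t : ℚ)) * hW0
  · intro hfin
    obtain ⟨n, u, v, hn, hu, hv, huv⟩ := exists_relation_of_pCurv hQ hfin
    have hmap := congrArg (Polynomial.map φ) huv
    simp only [Polynomial.map_mul, Polynomial.map_sub, Polynomial.map_natCast,
      ← derivative_map] at hmap
    have hu' : (u.map φ : PowerSeries ℚ) ≠ 0 := by
      rw [Ne, Polynomial.coe_eq_zero_iff, hφ]
      exact (Polynomial.map_ne_zero_iff (Int.castRingHom ℚ).injective_int).2 hu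
    have hW : PowerSeries.derivative ℚ ((v.map φ : PowerSeries ℚ) * f ^ n) * (u.map φ) =
        (v.map φ : PowerSeries ℚ) * f ^ n * PowerSeries.derivative ℚ (u.map φ : PowerSeries ℚ) := by
      refine mul_left_cancel₀ (mt Polynomial.coe_eq_zero_iff.1 hQ' :
        (Q.map φ : PowerSeries ℚ) ≠ 0) ?_
      have hmap' := congrArg (fun F : ℚ[X] => (F : PowerSeries ℚ)) hmap
      rw [← mul_assoc, hd, PowerSeries.derivative_coe]
      simp only [Polynomial.coe_mul, Polynomial.coe_sub, Polynomial.coe_add, hnc] at hmap' ⊢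
      linear_combination -(f ^ n) * hmap'
    obtain ⟨c, hc⟩ := exists_eq_smul_of_wronskian hu' hW
    refine ⟨C (v.map φ) * X ^ n - C (C c * u.map φ), fun e => ?_, ?_⟩
    · have h1 := congrArg (fun F : ℚ[X][X] => F.coeff n) e
      rw [coeff_sub, coeff_C_mul_X_pow, if_pos rfl, coeff_C, if_neg hn.ne', sub_zero,
        coeff_zero, hφ] at h1
      exact (Polynomial.map_ne_zero_iff (Int.castRingHom ℚ).injective_int).2 hv h1
    · rw [map_sub, map_mul, aeval_C, aeval_X_pow, aeval_C, hco, hco, hc, Polynomial.coe_mul,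
        Polynomial.coe_C, PowerSeries.smul_eq_C_mul, sub_self]

end FA.KroneckerHonda
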